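import Fermat.Agent.S58.Spec

/-!
# S58 leaf COUNT (helper285): `a_q(W) ≠ ±(q + 1)`

`a_q(W) = q + 1 - #W(𝔽_q)` with `1 ≤ #W(𝔽_q) ≤ 2 q + 1`: the point at infinity gives the lower
bound, and for each `x` the Weierstrass equation is a monic quadratic in `y`, which gives the
upper bound.
-/

set_option autoImplicit false

open Polynomial

namespace Fermat.Agent.S58.H285

/-- The monic quadratic in `y` cut out by the Weierstrass equation at a fixed `x`. -/
noncomputable def fiberPoly_h285 {F : Type} [Field F] (W : WeierstrassCurve F) (x : F) : F[X] :=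
  X ^ 2 + C (W.a₁ * x + W.a₃) * X - C (x ^ 3 + W.a₂ * x ^ 2 + W.a₄ * x + W.a₆)

theorem fiberPoly_natDegree_h285 {F : Type} [Field F] (W : WeierstrassCurve F) (x : F) :
    (fiberPoly_h285 W x).natDegree = 2 := by
  unfold fiberPoly_h285
  have h : (X ^ 2 + C (W.a₁ * x + W.a₃) * X - C (x ^ 3 + W.a₂ * x ^ 2 + W.a₄ * x + W.a₆) : F[X])
      = X ^ 2 + (C (W.a₁ * x + W.a₃) * X + C (-(x ^ 3 + W.a₂ * x ^ 2 + W.a₄ * x + W.a₆))) := by
    rw [C_neg]; ring
  rw [h]
  have hlt : (C (W.a₁ * x + W.a₃) * X + C (-(x ^ 3 + W.a₂ * x ^ 2 + W.a₄ * x + W.a₆)) : F[X]).degree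
      < ((X : F[X]) ^ 2).degree := by
    rw [degree_X_pow]
    exact lt_of_le_of_lt (degree_linear_le) (by norm_num)
  rw [natDegree_add_eq_left_of_degree_lt hlt, natDegree_X_pow]

theorem fiberPoly_ne_zero_h285 {F : Type} [Field F] (W : WeierstrassCurve F) (x : F) :
    fiberPoly_h285 W x ≠ 0 := by
  intro h
  have := fiberPoly_natDegree_h285 W x
  rw [h, natDegree_zero] at this
  exact absurd this (by norm_num)

theorem fiberPoly_isRoot_h285 {F : Type} [Field F] (W : WeierstrassCurve F) (x y : F)
    (h : W.toAffine.Equation x y) : (fiberPoly_h285 W x).IsRoot y := by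
  rw [WeierstrassCurve.Affine.equation_iff] at h
  unfold fiberPoly_h285
  simp only [IsRoot.def, eval_sub, eval_add, eval_pow, eval_X, eval_mul, eval_C]
  linear_combination h

/-- The number of solutions of the Weierstrass equation over a finite field `F` is at most
`2 * #F`. -/
theorem card_equation_le_h285 {F : Type} [Field F] [Fintype F] [DecidableEq F]
    (W : WeierstrassCurve F) (S : Finset (F × F))
    (hS : ∀ p ∈ S, W.toAffine.Equation p.1 p.2) : S.card ≤ 2 * Fintype.card F := by
  classical
  have h1 : S.card ≤ 2 * (S.image Prod.fst).card := by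
    refine Finset.card_le_mul_card_image S 2 ?_
    intro x _
    have hinj : Set.InjOn Prod.snd (↑(S.filter fun p => p.1 = x) : Set (F × F)) := by
      intro p hp p' hp' hpp'
      simp only [Finset.coe_filter, Set.mem_setOf_eq] at hp hp'
      exact Prod.ext (hp.2.trans hp'.2.symm) hpp'
    have hsub : ((S.filter fun p => p.1 = x).image Prod.snd).val ⊆ (fiberPoly_h285 W x).roots := by
      intro y hy
      rw [Finset.mem_val, Finset.mem_image] at hy
      obtain ⟨p, hp, rfl⟩ := hy
      rw [Finset.mem_filter] at hp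
      rw [mem_roots (fiberPoly_ne_zero_h285 W x)]
      have := hS p hp.1
      rw [hp.2] at this
      exact fiberPoly_isRoot_h285 W x p.2 this
    calc (S.filter fun p => p.1 = x).card
        = ((S.filter fun p => p.1 = x).image Prod.snd).card := (Finset.card_image_of_injOn hinj).symm
      _ ≤ (fiberPoly_h285 W x).natDegree := Polynomial.card_le_degree_of_subset_roots hsub
      _ = 2 := fiberPoly_natDegree_h285 W x
  calc S.card ≤ 2 * (S.image Prod.fst).card := h1
    _ ≤ 2 * Fintype.card F := Nat.mul_le_mul_left 2 (Finset.card_le_univ _)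

/-- Coordinates of a point (`none` for the point at infinity). -/
noncomputable def pointCoord_h285 {F : Type} [Field F] (W : WeierstrassCurve F) :
    W.toAffine.Point → Option (F × F)
  | .zero => none
  | .some x y _ => some (x, y)

theorem pointCoord_injective_h285 {F : Type} [Field F] (W : WeierstrassCurve F) :
    Function.Injective (pointCoord_h285 W) := by
  rintro (_ | ⟨x₁, y₁, h₁⟩) (_ | ⟨x₂, y₂, h₂⟩) h <;>
    simp only [pointCoord_h285, Option.some.injEq, Prod.mk.injEq, reduceCtorEq] at h
  · rfl
  · obtain ⟨rfl, rfl⟩ := h; rfl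

/-- `1 ≤ #W(F) ≤ 2 #F + 1` for a Weierstrass curve over a finite field. -/
theorem card_point_bounds_h285 {F : Type} [Field F] [Fintype F] (W : WeierstrassCurve F) :
    1 ≤ Nat.card W.toAffine.Point ∧ Nat.card W.toAffine.Point ≤ 2 * Fintype.card F + 1 := by
  classical
  haveI : Finite W.toAffine.Point := Finite.of_injective _ (pointCoord_injective_h285 W)
  haveI : Fintype W.toAffine.Point := Fintype.ofFinite _
  refine ⟨?_, ?_⟩
  · exact Nat.one_le_iff_ne_zero.mpr (Nat.card_ne_zero.mpr ⟨⟨0⟩, inferInstance⟩)
  · rw [Nat.card_eq_fintype_card]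
    let S : Finset (F × F) := Finset.univ.filter fun p => W.toAffine.Equation p.1 p.2
    have hS : ∀ p ∈ S, W.toAffine.Equation p.1 p.2 := fun p hp => (Finset.mem_filter.mp hp).2
    have hle : Fintype.card W.toAffine.Point ≤ (insert none (S.image some)).card := by
      rw [← Finset.card_univ]
      refine Finset.card_le_card_of_injOn (pointCoord_h285 W) ?_
        ((pointCoord_injective_h285 W).injOn)
      rintro (_ | ⟨x, y, h⟩) _
      · simp [pointCoord_h285]
      · simp only [pointCoord_h285, Finset.coe_insert, Finset.coe_image, Set.mem_insert_iff,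
          reduceCtorEq, Set.mem_image, Finset.mem_coe, Option.some.injEq, exists_eq_right,
          false_or]
        exact Finset.mem_filter.mpr ⟨Finset.mem_univ _, h.1⟩
    calc Fintype.card W.toAffine.Point ≤ (insert none (S.image some)).card := hle
      _ ≤ (S.image some).card + 1 := Finset.card_insert_le _ _
      _ ≤ S.card + 1 := Nat.add_le_add_right Finset.card_image_le 1
      _ ≤ 2 * Fintype.card F + 1 := Nat.add_le_add_right (card_equation_le_h285 W S hS) 1

/-- **Leaf COUNT.** -/
theorem pointCount : Fermat.Agent.S58.PointCountStatement := by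
  intro W q hq
  haveI : Fact q.Prime := ⟨hq⟩
  have hb := card_point_bounds_h285 (W.reductionMod q)
  have hcard : Nat.card (ZMod q) = q := by
    rw [Nat.card_eq_fintype_card, ZMod.card]
  have hap : W.apOfModel q = (q : ℤ) + 1 - (Nat.card (W.reductionMod q).toAffine.Point : ℤ) := by
    unfold WeierstrassCurve.apOfModel WeierstrassCurve.traceOfFrobenius WeierstrassCurve.card
    rw [hcard]
  rw [ZMod.card] at hb
  have h1 : (1 : ℤ) ≤ (Nat.card (W.reductionMod q).toAffine.Point : ℤ) := by exact_mod_cast hb.1
  have h2 : (Nat.card (W.reductionMod q).toAffine.Point : ℤ) ≤ 2 * (q : ℤ) + 1 := by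
    exact_mod_cast hb.2
  constructor
  · rw [hap]; omega
  · rw [hap]; omega

end Fermat.Agent.S58.H285
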